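import Mathlib
import Fermat.Agent.LT.T7.B981.PairASpec

/-!
# Row LT, tower T7, node T7.L2.1.H2a.A.1 `B981.StepTC981` (sub-architect helper589, registry
# 2814): THE CUT -- Spec

OFF-MAIN.  Definitions and frozen Props only (the proved top is `StepTTop.lean`).  No hole,
nothing assumed.  ADDITIVE (new names only, suffix `589`, namespace
`Fermat.Agent.LT.T7.ST589`).  Vocabulary: `T7/B981/PairASpec.lean` (helper981, sha256 54ea7f02)
and its imports, byte-identical copies.

    stepTC_of589 : PlaceC589 K K' → SysC589 K' → SysC589 K → DTestC589 K' → DTestC589 K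
        → DEkC589 K' → DEkC589 K → DSuppC589 K' → DSuppC589 K → DOpC589 K' → DOpC589 K
        → ShapeTC589 K K' → B981.StepTC981 K K' H893.LocA893                  (VERBATIM)

## The construction (NO base change theorem, NO Satake eigenvalue theorem in the operators)

ONE field `F`, a finite place `v` prime to the level, `H` a Hecke coset system at `v`
(`A0.IsHeckeCosetSystem`), `z` a scalar uniformiser at `v`:

    tStep589 v H z f (g) = q_v^{-1/2} ∑_{h ∈ H} f (g z⁻¹ h)        (the step of `T_v`)
    sStep589 z f (g)     = f (g z⁻¹)                                (the step of `S_v`)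
    dStep589 v H z 0 f = 2 f,   dStep589 v H z 1 f = tStep589 v H z f,
    dStep589 v H z (d+2) f = tStep589 v H z (dStep589 v H z (d+1) f)
                               - sStep589 z (dStep589 v H z d f)

(the recursion of `satakePow`: `dStep d` is the DICKSON polynomial `x^d + y^d` in the two
steps).  For the generator `T_w`, `w ∉ S'`, `v` the place under `w`, `d` the residue degree:

    φ' = dStep589 w H' z' 1 φ = tStep589 w H' z' φ,        f' = dStep589 v H z d f.

So downstairs the base change `b(T_w)` (Satake transform `x^d + y^d`) is WRITTEN as a polynomial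
in the two elementary steps at `v`; the operator identity downstairs is
`R(f') χ = satakePow d (c.a v) (c.b v) R(f) χ = C.a w R(f) χ` (`IsBCData`), from the two
eigen-equations of `χ` at `v` only (`IsEigFn.hecke`).

## The leaves

* **`PlaceC589 K K'`** [S-M] (number theory): every finite place `w` of `K'` lies over a place
  `v` of `K` with a residue degree; `v ∣ 𝔫 → w ∣ 𝔫 𝒪_{K'}`.
* **`SysC589 F`** [S] (closed assets): Hecke coset systems and scalar uniformisers exist.
* **`DTestC589 F`** [L]: `dStep589 v H z d` preserves the test functions of a level prime to `v`.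
* **`DEkC589 F`** [M-L]: ... preserves Eisenstein-killing with Eisenstein-killing adjoint.
* **`DSuppC589 F`** [M]: ... preserves the Iwahori supports (`v` outside the orbit).
* **`DOpC589 F`** [L]: `R(dStep589 v H z d f) χ = satakePow d a b · R(f) χ` for `χ` continuous,
  right invariant under a level group prime to `v`, with `IsHeckeEigenAt χ v a b`.
* **`ShapeTC589 K K'`** [XL, NODE]: the local shape `IsAvgPure … (LocA893 …) 1` of the new pair.

## Proofs (sketch) and FALSITY CHECKS (helper589)

`DTestC589`.  Continuity, compact support, smoothness at infinity, the archimedean invariances: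
finite sums of right translates by elements supported at the finite place `v` (they commute
with the elements supported at infinity), `z` is central (scalar matrix over the adeles).
Right invariance under `U(𝔫)`: `u = u_v u^v`, `u^v` commutes with `z⁻¹ h`, `u_v ∈ GL₂(𝒪_v)`
(`v ∤ 𝔫`) and `u_v h ∈ h' GL₂(𝒪_v)` for ONE `h' ∈ H` (FULLNESS of the system: the integral
matrices with determinant a uniformiser are `q + 1` right cosets of `GL₂(𝒪_v)`, the lattices of
index `q`; `H` has `q + 1` inequivalent elements), `h ↦ h'` is a permutation of `H`, and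
`h'⁻¹ u_v h u^v ∈ U(𝔫)`.  `𝔫 = ⊥` is excluded by `¬ v ∣ 𝔫`.  CHECK: `∑_h f(g h⁻¹)` would NOT be
right invariant (caution of helper981); here the sum is over `z⁻¹ h`, representatives of
`K λ⁻¹ K / K`.
`DEkC589`.  `R(f(· c)) Ψ = R(f) (Ψ(· c⁻¹))` (right invariance of the Haar measure,
`IsFrame.right_inv`) and `Ψ(· c⁻¹)` is Borel-invariant (the ray generator of `Ψ` is a scalar
matrix over the adeles, so central); `adjointFn (f(· c)) = (adjointFn f)(c⁻¹ ·)` and
`R(ψ(c ·)) Ψ (x) = R(ψ) Ψ (x c⁻¹)` (left invariance).  Finite sums and differences: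
the integrands are continuous with compact support (hypothesis `htest`).
`DSuppC589`.  If `f (y c) ≠ 0` then `y c` is Iwahori along the orbit and agrees outside the
orbit with a point of `C`; `c` is trivial at the orbit (`o j ≠ v`), so `y` is Iwahori there and
agrees outside the orbit with a point of `C c⁻¹`; finite unions of compact sets.
`DOpC589`.  `I(d) = ∫ f(y) χ(x y d) dy` is bi-invariant under `GL₂(𝒪_v)` (supported at `v`) in
`d`: on the left by the right invariance of `f` and of the Haar measure, on the right by the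
invariance of `χ` (`v ∤ 𝔫₀` because `𝔫 ≤ 𝔫₀`).  `R(tStep f) χ (x) = q^{-1/2} ∑_h I(h⁻¹ z)`, and
`h⁻¹ z` is integral with determinant a uniformiser, so `h⁻¹ z ∈ GL₂(𝒪_v) h₀ GL₂(𝒪_v)` for every
`h₀ ∈ H` (elementary divisors: ONE double coset), `I(h⁻¹ z) = I(h₀)`,
`∑_h I(h⁻¹ z) = ∑_h I(h) = √q a R(f) χ (x)` (`IsHeckeEigenAt`).  NO common representatives of
left and right cosets are needed.  `R(sStep f) χ = b R(f) χ` (`χ(g z) = b χ(g)`).  Induction
with the recursion of `satakePow`.
`ShapeTC589`.  Same parameter space and measure.  `tStep` of a pure tensor is the pure tensor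
with the component at `v` replaced by its local step
`ψ ↦ q^{-1/2} ∑_h ψ(· c⁻¹ h_v)` (the set `T a` enlarged by `v`, `T' a` by the places over `v`;
if `v ∉ T a` the old components over `v` are JUNK and are replaced by `1_{GL₂(𝒪)}` first).  The
places of the level are untouched (`v ∉ T₀`: `v ∤ 𝔫`), `ArchOk893` is untouched (`LocHyp305`
for the EMPTY set of finite places reads the components at infinity only).  `SphOut893` at `v`:
the local steps preserve the spherical functions and multiply the Satake transforms by `x + y`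
(`T`) resp. `x y` (`S`) (the recursion of `T6.satPoly`: count on the tree), so upstairs the
transform at `w` is multiplied by `X + Y`, downstairs at `v` by `x^d + y^d`.  `w` the only
place over `v` (`d = ℓ`, `RamIn`: unramified): `T6.IsBC ℓ q` is kept
(`X = x^ℓ`, `Y = y^ℓ`); `v` split (`d = 1`): the product formula over the fibre is kept (ONE
factor multiplied by `x + y`).  Members: `DTestC589`; joint continuity and the common compact
support: finite sums of translates.
-/

set_option autoImplicit false

open AutomorphicForm IsDedekindDomain NumberField MeasureTheory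
open scoped ComplexConjugate

noncomputable section

namespace Fermat.Agent.LT.T7.ST589

open Fermat.Agent.LT.H556 Fermat.Agent.LT.H556.A0 Fermat.Agent.LT.T7
open Fermat.Agent.LT.T7.H305 Fermat.Agent.LT.T7.H893

attribute [local instance] Fermat.Agent.LT.T5.instMeasurableSpaceG

/-! ## 1. The steps (ONE field) -/

section Steps

variable {F : Type} [Field F] [NumberField F]

/-- **The step of `T_v`**: `q_v^{-1/2} ∑_{h ∈ H} f (g z⁻¹ h)`. -/
def tStep589 (v : HeightOneSpectrum (𝓞 F)) (H : Finset (G F)) (z : G F) (f : G F → ℂ) :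
    G F → ℂ :=
  fun g => ((Real.sqrt (Ideal.absNorm v.asIdeal : ℝ) : ℝ) : ℂ)⁻¹ * ∑ h ∈ H, f (g * z⁻¹ * h)

/-- **The step of `S_v`**: `f (g z⁻¹)`. -/
def sStep589 (z : G F) (f : G F → ℂ) : G F → ℂ := fun g => f (g * z⁻¹)

/-- **The step of the Dickson polynomial `x^d + y^d`** in `T_v`, `S_v` (the recursion of
`satakePow`). -/
def dStep589 (v : HeightOneSpectrum (𝓞 F)) (H : Finset (G F)) (z : G F) :
    ℕ → (G F → ℂ) → G F → ℂ
  | 0, f => fun g => 2 * f g
  | 1, f => tStep589 v H z f
  | (d + 2), f => fun g =>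
      tStep589 v H z (dStep589 v H z (d + 1) f) g - sStep589 z (dStep589 v H z d f) g

end Steps

/-! ## 2. The leaves for ONE field -/

section OneField

variable (F : Type) [Field F] [NumberField F]

/-- **LEAF ST.2 = SYS (closed assets).**  At every finite place there are a Hecke coset system
and a scalar uniformiser. -/
def SysC589 : Prop :=
  ∀ v : HeightOneSpectrum (𝓞 F), ∃ (H : Finset (G F)) (z : G F),
    IsHeckeCosetSystem v H ∧ IsScalarUniformizerAt v z

/-- **LEAF ST.3 = D-TEST.**  The steps at a place prime to the level preserve the test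
functions of the level.  See the header. -/
def DTestC589 : Prop :=
  ∀ (𝔫 : Ideal (𝓞 F)) (v : HeightOneSpectrum (𝓞 F)), ¬ v.asIdeal ∣ 𝔫 →
    ∀ (H : Finset (G F)) (z : G F), IsHeckeCosetSystem v H → IsScalarUniformizerAt v z →
    ∀ f : G F → ℂ, T5.IsTestFn 𝔫 T5.trivType f →
      ∀ d : ℕ, T5.IsTestFn 𝔫 T5.trivType (dStep589 v H z d f)

/-- **LEAF ST.4 = D-EK.**  The steps preserve the Eisenstein-killing functions with
Eisenstein-killing adjoints.  See the header. -/
def DEkC589 : Prop :=
  ∀ R : Frame5 F, IsFrame5 R →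
    ∀ (𝔫 : Ideal (𝓞 F)) (v : HeightOneSpectrum (𝓞 F)), ¬ v.asIdeal ∣ 𝔫 →
    ∀ (H : Finset (G F)) (z : G F), IsHeckeCosetSystem v H → IsScalarUniformizerAt v z →
    ∀ f : G F → ℂ, T5.IsTestFn 𝔫 T5.trivType f →
      (∀ d : ℕ, T5.IsTestFn 𝔫 T5.trivType (dStep589 v H z d f)) →
      T5.IsEK R.μ f → T5.IsEK R.μ (T5.adjointFn f) →
      ∀ d : ℕ, T5.IsEK R.μ (dStep589 v H z d f) ∧
        T5.IsEK R.μ (T5.adjointFn (dStep589 v H z d f))

/-- **LEAF ST.5 = D-SUPP.**  The steps at a place outside the orbit preserve the Iwahori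
supports.  See the header. -/
def DSuppC589 : Prop :=
  ∀ (l : ℕ) (o : ℕ → HeightOneSpectrum (𝓞 F)) (v : HeightOneSpectrum (𝓞 F)),
    (∀ j : ℕ, j < l → o j ≠ v) →
    ∀ (H : Finset (G F)) (z : G F), IsHeckeCosetSystem v H → IsScalarUniformizerAt v z →
    ∀ f : G F → ℂ, (∃ C : Set (G F), IsCompact C ∧ T5.H32.IsIwSupported32 l o C f) →
      ∀ d : ℕ, ∃ C : Set (G F), IsCompact C ∧
        T5.H32.IsIwSupported32 l o C (dStep589 v H z d f)

/-- **LEAF ST.6 = D-OP.**  On a continuous function `χ` which is right invariant under a level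
group prime to `v` and is an eigenfunction of the Hecke operators at `v` with the eigenvalues
`(a, b)`: `R(dStep589 v H z d f) χ = satakePow d a b · R(f) χ`.  See the header. -/
def DOpC589 : Prop :=
  ∀ R : Frame5 F, IsFrame5 R →
    ∀ (𝔫 𝔫₀ : Ideal (𝓞 F)), 𝔫 ≤ 𝔫₀ →
    ∀ v : HeightOneSpectrum (𝓞 F), ¬ v.asIdeal ∣ 𝔫 →
    ∀ (H : Finset (G F)) (z : G F), IsHeckeCosetSystem v H → IsScalarUniformizerAt v z →
    ∀ f : G F → ℂ, T5.IsTestFn 𝔫 T5.trivType f →
      (∀ d : ℕ, T5.IsTestFn 𝔫 T5.trivType (dStep589 v H z d f)) →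
    ∀ (χ : G F → ℂ) (a b : ℂ), Continuous χ →
      (∀ u : G F, InLevelGroup 𝔫₀ u → ∀ g : G F, χ (g * u) = χ g) →
      IsHeckeEigenAt χ v a b →
      ∀ (d : ℕ) (x : G F),
        T5.Rconv R.μ (dStep589 v H z d f) χ x = satakePow d a b * T5.Rconv R.μ f χ x

end OneField

/-! ## 3. The leaves for the extension -/

section TwoFields

variable (K K' : Type) [Field K] [NumberField K] [Field K'] [NumberField K'] [Algebra K K']

/-- **LEAF ST.1 = PLACE (number theory).**  Every finite place `w` of `K'` lies over a finite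
place `v` of `K` with a residue degree `d` (`N w = (N v)^d`); if `v` divides `𝔫` then `w`
divides `𝔫 𝒪_{K'}`.
Proof.  `v = w ∩ 𝒪_K` (a non-zero prime: `K'/K` is finite, so integral), `𝒪_K / v ⊆ 𝒪_{K'} / w`
finite fields, `d` = the degree.  `𝔫 ≤ v` gives `𝔫 𝒪_{K'} ≤ w` (`PlaceOver`). -/
def PlaceC589 : Prop :=
  (∀ ℓ : ℕ, IsCycExt K K' ℓ → ∀ w : HeightOneSpectrum (𝓞 K'),
      ∃ (v : HeightOneSpectrum (𝓞 K)) (d : ℕ), HasResDeg K K' v w d) ∧
    ∀ (𝔫 : Ideal (𝓞 K)) (v : HeightOneSpectrum (𝓞 K)) (w : HeightOneSpectrum (𝓞 K')),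
      PlaceOver K K' v w → v.asIdeal ∣ 𝔫 → w.asIdeal ∣ upI (K' := K') 𝔫

/-- **NODE ST.7 = SHAPE-T (the local shape of the new pair).**  In the setting of
`B981.StepTC981` for the shape of record `H893.LocA893`: for `w ∉ S'` over `v` with residue
degree `d`, Hecke coset systems and scalar uniformisers at `w` and `v`, and a pair `(φ, f)`
with the word-free properties: the pair `(dStep589 w H' z' 1 φ, dStep589 v H z d f)` is an
average of pure tensors with the local condition `LocA893`, constant `1`.  The leaves `DTestC589`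
(both fields) are given.  See the header. -/
def ShapeTC589 : Prop :=
  DTestC589 K' → DTestC589 K →
  ∀ ℓ : ℕ, IsCycExt K K' ℓ → ℓ ≠ 2 → TotCplx K →
    ∀ (Φ : HeckeEigensystem K' ℂ) (B : L2Base K K'), IsL2Base ℓ Φ B → B.RamIn →
      ∀ 𝔫 : Ideal (𝓞 K), Q797.IsLevel797 B 𝔫 →
      ∀ μc : @Measure (GL (Fin 2) ℂ) (borel _), @Measure.IsHaarMeasure _ _ _ (borel _) μc →
      ∀ (T₀ : Finset (HeightOneSpectrum (𝓞 K)))
        (n n₀ : HeightOneSpectrum (𝓞 K') → ℕ) (m : HeightOneSpectrum (𝓞 K) → ℕ),
        Q797.IsExp797 B 𝔫 T₀ n n₀ m →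
        ∀ w : HeightOneSpectrum (𝓞 K'), w ∉ B.S' →
        ∀ (v : HeightOneSpectrum (𝓞 K)) (d : ℕ), HasResDeg K K' v w d →
        ∀ (H' : Finset (G K')) (z' : G K') (H : Finset (G K)) (z : G K),
          IsHeckeCosetSystem w H' → IsScalarUniformizerAt w z' →
          IsHeckeCosetSystem v H → IsScalarUniformizerAt v z →
        ∀ (φ : G K' → ℂ) (f : G K → ℂ),
          B981.IsGoodA981 H893.LocA893 ℓ B 𝔫 μc T₀ n m φ f →
          IsAvgPure (upI (K' := K') 𝔫) 𝔫 T₀ (H893.LocA893 B 𝔫 μc T₀ n m) 1
            (dStep589 w H' z' 1 φ) (dStep589 v H z d f)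

end TwoFields

/-! ## Appendix: the equation lemmas of the definitions of this file are realised HERE -/

theorem eqns_realised_stepT589 : True := by
  have _a0 := @tStep589.eq_1
  have _a1 := @sStep589.eq_1
  have _a2 := @dStep589.eq_1
  have _a3 := @dStep589.eq_2
  have _a4 := @dStep589.eq_3
  have _a5 := @dStep589.eq_def
  have _b0 := @SysC589.eq_1
  have _b1 := @DTestC589.eq_1
  have _b2 := @DEkC589.eq_1
  have _b3 := @DSuppC589.eq_1
  have _b4 := @DOpC589.eq_1
  have _b5 := @PlaceC589.eq_1
  have _b6 := @ShapeTC589.eq_1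
  have _c0 := @tStep589.eq_def
  have _c1 := @sStep589.eq_def
  have _c2 := @SysC589.eq_def
  have _c3 := @DTestC589.eq_def
  have _c4 := @DEkC589.eq_def
  have _c5 := @DSuppC589.eq_def
  have _c6 := @DOpC589.eq_def
  have _c7 := @PlaceC589.eq_def
  have _c8 := @ShapeTC589.eq_def
  trivial

end Fermat.Agent.LT.T7.ST589

end
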