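import Mathlib
import Fermat.Agent.LT.T7.H589.StepTSpec

/-!
# Row LT, tower T7, node T7.L2.1.H2a.A.1 `B981.StepTC981` (helper589, registry 2814): THE TOP

OFF-MAIN.  `stepTC_of589`: the node from the leaves of `StepTSpec.lean`, VERBATIM for the shape
of record `H893.LocA893`.  No hole, nothing assumed.
-/

set_option autoImplicit false

open AutomorphicForm IsDedekindDomain NumberField MeasureTheory
open scoped ComplexConjugate

noncomputable section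

namespace Fermat.Agent.LT.T7.ST589

open Fermat.Agent.LT.H556 Fermat.Agent.LT.H556.A0 Fermat.Agent.LT.T7
open Fermat.Agent.LT.T7.H305 Fermat.Agent.LT.T7.H893

attribute [local instance] Fermat.Agent.LT.T5.instMeasurableSpaceG

variable {K K' : Type} [Field K] [NumberField K] [Field K'] [NumberField K'] [Algebra K K']

/-- **THE TOP**: `B981.StepTC981` for the shape of record from the leaves. -/
theorem stepTC_of589 (hP : PlaceC589 K K') (hS' : SysC589 K') (hS : SysC589 K)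
    (hT' : DTestC589 K') (hT : DTestC589 K) (hE' : DEkC589 K') (hE : DEkC589 K)
    (hU' : DSuppC589 K') (hU : DSuppC589 K) (hO' : DOpC589 K') (hO : DOpC589 K)
    (hSh : ShapeTC589 K K') : B981.StepTC981 K K' H893.LocA893 := by
  intro ℓ hcyc hℓ hcplx Φ B hB hRam 𝔫 hlev μc hμc T₀ n n₀ m hexp x hx hxout φ f hgood
  obtain ⟨w, rfl⟩ := hx
  have hw : w ∉ B.S' := hxout
  obtain ⟨v, d, hvd⟩ := hP.1 ℓ hcyc w
  have hw𝔑 : ¬ w.asIdeal ∣ upI (K' := K') 𝔫 := fun h => hw ((hlev.mem_S'_g w).2 h)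
  have hw𝔑₀ : ¬ w.asIdeal ∣ B.𝔑₀ := fun h => hw ((hB.mem_S' w).2 h)
  have hv𝔫 : ¬ v.asIdeal ∣ 𝔫 := fun h => hw𝔑 (hP.2 𝔫 v w hvd.1 h)
  obtain ⟨H', z', hH', hz'⟩ := hS' w
  obtain ⟨H, z, hH, hz⟩ := hS v
  have htest' := hT' (upI (K' := K') 𝔫) w hw𝔑 H' z' hH' hz' φ hgood.up_test
  have htest := hT 𝔫 v hv𝔫 H z hH hz f hgood.dn_test
  have horb' : ∀ j : ℕ, j < ℓ → B.o j ≠ w := fun j _ h => hw (h ▸ hB.orbit_level j)
  have horb : ∀ j : ℕ, j < 1 → (fun _ : ℕ => B.u) j ≠ v := fun j _ h =>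
    hv𝔫 (h ▸ hlev.u_level)
  refine ⟨(dStep589 w H' z' 1 φ, dStep589 v H z d f),
    ⟨htest' 1, ?_, htest d, ?_, ?_, ?_, ?_⟩, ⟨?_, ?_⟩⟩
  · exact hE' B.R' hB.frame' (upI (K' := K') 𝔫) w hw𝔑 H' z' hH' hz' φ hgood.up_test htest'
      hgood.up_ek.1 hgood.up_ek.2 1
  · exact hE B.R hB.frame 𝔫 v hv𝔫 H z hH hz f hgood.dn_test htest
      hgood.dn_ek.1 hgood.dn_ek.2 d
  · exact hU' ℓ B.o w horb' H' z' hH' hz' φ hgood.up_supp 1
  · exact hU 1 (fun _ => B.u) v horb H z hH hz f hgood.dn_supp d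
  · exact hSh hT' hT ℓ hcyc hℓ hcplx Φ B hB hRam 𝔫 hlev μc hμc T₀ n n₀ m hexp w hw v d hvd
      H' z' H z hH' hz' hH hz φ f hgood
  · intro χ C hχ y
    have h := hO' B.R' hB.frame' (upI (K' := K') 𝔫) B.𝔑₀ hlev.level_g w hw𝔑 H' z' hH' hz' φ
      hgood.up_test htest' χ (C.a w) (C.b w) hχ.inv.cusp.cont hχ.inv.cusp.aut.level_inv
      (hχ.hecke w hw𝔑₀) 1 y
    simpa [Gen.ev] using h
  · intro χ c C hχ hbc y
    have h := hO B.R hB.frame 𝔫 𝔫 le_rfl v hv𝔫 H z hH hz f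
      hgood.dn_test htest χ (c.a v) (c.b v) hχ.inv.cusp.cont hχ.inv.cusp.aut.level_inv
      (hχ.hecke v hv𝔫) d y
    rw [h]
    have hC := (hbc.1 w hw v d hvd).1
    simp only [Gen.ev]
    rw [hC]

end Fermat.Agent.LT.T7.ST589

end
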