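import Mathlib
import Fermat.Agent.LT.T7.H159.HaarSplit

/-!
# Row LT, tower T7, leaf C2.7.5 `TorSplitC305` (helper589): the abstract measure theory

OFF-MAIN.  MATHLIB + the asset `T7/H159/HaarSplit.lean` (helper159, byte-identical copy).

* `exists_smul_prod589`: `μ` a Haar measure of `G`, `E` an open subgroup, `p : G →* ∏ T₁ × ∏ T₂`
  continuous, onto and proper on `E`: the image of `μ|_E` is a positive multiple of the product
  of given Haar measures.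
* `smul_prod_box589`: the value of `c • (⊗ μ₁ ⊗ ⊗ μ₂)` on a box `∏ C_i × B` with `μ₁ i (C i) = 1`.
* `map_prodMap_pi589`: the image of a product measure under a product of maps.
-/

set_option autoImplicit false

open MeasureTheory MeasureTheory.Measure Set

noncomputable section

namespace Fermat.Agent.LT.H589

section Abs

variable {G : Type*} [Group G] [TopologicalSpace G] [IsTopologicalGroup G]
  [MeasurableSpace G] [BorelSpace G]
  {ι₁ ι₂ : Type*} [Fintype ι₁] [Fintype ι₂]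
  {T₁ : ι₁ → Type*} {T₂ : ι₂ → Type*}
  [∀ i, Group (T₁ i)] [∀ i, TopologicalSpace (T₁ i)] [∀ i, IsTopologicalGroup (T₁ i)]
  [∀ i, MeasurableSpace (T₁ i)] [∀ i, BorelSpace (T₁ i)]
  [∀ i, LocallyCompactSpace (T₁ i)] [∀ i, SecondCountableTopology (T₁ i)]
  [∀ j, Group (T₂ j)] [∀ j, TopologicalSpace (T₂ j)] [∀ j, IsTopologicalGroup (T₂ j)]
  [∀ j, MeasurableSpace (T₂ j)] [∀ j, BorelSpace (T₂ j)]
  [∀ j, LocallyCompactSpace (T₂ j)] [∀ j, SecondCountableTopology (T₂ j)]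

/-- The image of `μ|_E` is a positive multiple of the product measure. -/
theorem exists_smul_prod589 (μ : Measure G) [μ.IsHaarMeasure] (E : Subgroup G)
    (hE : IsOpen (E : Set G)) (p : G →* ((∀ i, T₁ i) × (∀ j, T₂ j))) (hp : Continuous p)
    (hsurj : ∀ h : (∀ i, T₁ i) × (∀ j, T₂ j), ∃ e ∈ E, p e = h)
    (hproper : ∀ C : Set ((∀ i, T₁ i) × (∀ j, T₂ j)), IsCompact C → IsClosed C →
      ∃ C' : Set G, IsCompact C' ∧ p ⁻¹' C ∩ (E : Set G) ⊆ C')
    (μ₁ : ∀ i, Measure (T₁ i)) [∀ i, (μ₁ i).IsHaarMeasure]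
    (μ₂ : ∀ j, Measure (T₂ j)) [∀ j, (μ₂ j).IsHaarMeasure] :
    ∃ c : NNReal, 0 < c ∧
      Measure.map p (μ.restrict (E : Set G))
        = c • ((Measure.pi μ₁).prod (Measure.pi μ₂)) := by
  have hH := Fermat.Agent.LT.T7.H159.isHaarMeasure_map_restrict159 μ E hE p hp hsurj hproper
  exact ⟨haarScalarFactor (Measure.map p (μ.restrict (E : Set G)))
      ((Measure.pi μ₁).prod (Measure.pi μ₂)),
    haarScalarFactor_pos_of_isHaarMeasure _ _, isMulLeftInvariant_eq_smul _ _⟩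

omit [∀ i, IsTopologicalGroup (T₁ i)] [∀ i, BorelSpace (T₁ i)]
  [∀ i, LocallyCompactSpace (T₁ i)] [∀ i, SecondCountableTopology (T₁ i)]
  [∀ j, IsTopologicalGroup (T₂ j)] [∀ j, BorelSpace (T₂ j)]
  [∀ j, LocallyCompactSpace (T₂ j)] [∀ j, SecondCountableTopology (T₂ j)]
  [∀ i, Group (T₁ i)] [∀ i, TopologicalSpace (T₁ i)]
  [∀ j, Group (T₂ j)] [∀ j, TopologicalSpace (T₂ j)] in
/-- The value on a box. -/
theorem smul_prod_box589 (μ₁ : ∀ i, Measure (T₁ i)) [∀ i, SigmaFinite (μ₁ i)]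
    (μ₂ : ∀ j, Measure (T₂ j)) [∀ j, SigmaFinite (μ₂ j)] (c : NNReal)
    (C : ∀ i, Set (T₁ i)) (hC : ∀ i, μ₁ i (C i) = 1) (B : Set (∀ j, T₂ j)) :
    (c • ((Measure.pi μ₁).prod (Measure.pi μ₂))) ((Set.pi univ C) ×ˢ B)
      = c * (Measure.pi μ₂) B := by
  rw [Measure.smul_apply, Measure.prod_prod, Measure.pi_pi, Finset.prod_eq_one fun i _ => hC i,
    one_mul]
  rfl

omit [∀ i, IsTopologicalGroup (T₁ i)] [∀ i, BorelSpace (T₁ i)]
  [∀ i, LocallyCompactSpace (T₁ i)] [∀ i, SecondCountableTopology (T₁ i)]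
  [∀ j, IsTopologicalGroup (T₂ j)] [∀ j, BorelSpace (T₂ j)]
  [∀ j, LocallyCompactSpace (T₂ j)] [∀ j, SecondCountableTopology (T₂ j)]
  [∀ i, Group (T₁ i)] [∀ i, TopologicalSpace (T₁ i)]
  [∀ j, Group (T₂ j)] [∀ j, TopologicalSpace (T₂ j)] in
/-- The image of a product measure under a product of maps. -/
theorem map_prodMap_pi589 {X₁ : ι₁ → Type*} {X₂ : ι₂ → Type*}
    [∀ i, MeasurableSpace (X₁ i)] [∀ j, MeasurableSpace (X₂ j)]
    (μ₁ : ∀ i, Measure (T₁ i)) [∀ i, SigmaFinite (μ₁ i)]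
    (μ₂ : ∀ j, Measure (T₂ j)) [∀ j, SigmaFinite (μ₂ j)]
    (e₁ : ∀ i, T₁ i → X₁ i) (he₁ : ∀ i, Measurable (e₁ i))
    (e₂ : ∀ j, T₂ j → X₂ j) (he₂ : ∀ j, Measurable (e₂ j))
    [∀ i, SigmaFinite ((μ₁ i).map (e₁ i))] [∀ j, SigmaFinite ((μ₂ j).map (e₂ j))] :
    Measure.map (Prod.map (fun (x : ∀ i, T₁ i) i => e₁ i (x i))
        (fun (y : ∀ j, T₂ j) j => e₂ j (y j)))
      ((Measure.pi μ₁).prod (Measure.pi μ₂))
      = (Measure.pi fun i => (μ₁ i).map (e₁ i)).prod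
          (Measure.pi fun j => (μ₂ j).map (e₂ j)) := by
  have h1 : Measurable (fun (x : ∀ i, T₁ i) i => e₁ i (x i)) :=
    measurable_pi_lambda _ fun i => (he₁ i).comp (measurable_pi_apply i)
  have h2 : Measurable (fun (y : ∀ j, T₂ j) j => e₂ j (y j)) :=
    measurable_pi_lambda _ fun j => (he₂ j).comp (measurable_pi_apply j)
  rw [← Measure.map_prod_map _ _ h1 h2, Measure.pi_map_pi fun i => (he₁ i).aemeasurable,
    Measure.pi_map_pi fun j => (he₂ j).aemeasurable]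

end Abs

end Fermat.Agent.LT.H589

end
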