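import Mathlib
import Fermat.Agent.LT.T7.H305.MatchCut
import Fermat.Agent.LT.T7.H589.TorSplitAbs
import Fermat.Agent.LT.T7.H159.GoodUnit
import Fermat.Agent.LT.T3.H57.ROpEmb
import Fermat.Agent.LT.T3.M.H709.PureRegM
import Fermat.Agent.LT.H11.SC

/-!
# Row LT, tower T7, leaf C2.7.5 `TorSplitC305` (helper589, registry row 2569)

OFF-MAIN.  `torSplitC589 (K) : Fermat.Agent.LT.T7.H305.TorSplitC305 K`, VERBATIM, UNCONDITIONAL.
Spec: `T7/H305/MatchCut.lean` (helper305, sha256 0f302b81), byte-identical copy with its closure.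

## Proof

`T_𝔸 = T_𝔸(γ)` (closed subgroup of `GL₂(𝔸_K)`), `E_S = {t : t_v ∈ GL₂(𝒪_v), v ∉ S}` (open
subgroup: `T3.M.H709.isOpen_outUM709` for the unit ideal), `p_S : T_𝔸 → ∏_{v ∈ S} T_v × ∏_w T_w`
the components (continuous homomorphism).
* `pS_surj589`: `p_S` maps `E_S` ONTO the product (sections: `T3.H57.finEmb57`, `infEmb57`;
  `K` totally complex).
* `pS_proper589`: `p_S` is proper on `E_S` (compact boxes `T3.H245.boxG245`, a common
  denominator of a compact subset of `K_v`: `exists_denom_compact589`).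
* `exists_cS589`: the image of `μT|_{E_S}` is `c_S` times the product of the local Haar measures
  (`T7.H159.isHaarMeasure_map_restrict159` of helper159 + uniqueness of the Haar measure).
* `cS_unique589`: `c_S` does not depend on the good set `S`: for `S` good the preimage of the
  box `∏_{v ∈ S} T_v^c × B` in `E_S` is `{t : t_v ∈ T_v^c for ALL v, t_∞ ∈ B}`
  (`T7.H159.cent_compact159`: at a good place `T_v ∩ GL₂(𝒪_v) = T_v^c`), and the local measures
  are normalised by `μt_v(T_v^c) = 1`.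
* `map_compS589`: the ambient form (`Measure.pi_map_pi`, `Measure.map_prod_map`).
If `γ` has no good set at all the statement is empty.  (`T6.IsEll γ` is not used.)
-/

set_option autoImplicit false

open IsDedekindDomain NumberField MeasureTheory
open Fermat.Agent.LT.H556.A0
open Fermat.Agent.LT Fermat.Agent.LT.T7 Fermat.Agent.LT.T7.H305

noncomputable section

namespace Fermat.Agent.LT.H589

variable {K : Type} [Field K] [NumberField K]

/-! ## 0. Components -/

theorem finGL305_eq589 (v : HeightOneSpectrum (𝓞 K)) : finGL305 v = T3.AS.finGL K v := rfl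

theorem infGL305_eq589 (w : InfinitePlace K) : infGL305 w = T3.AS.infGL K w := rfl

theorem onG_id589 (x : G K) : (T5.AdelicAut.id K).onG x = x := by
  apply Units.ext
  ext i j
  rfl

theorem mem_tA589 (γ : GL (Fin 2) K) (t : G K) :
    t ∈ tA305 (T5.AdelicAut.id K) γ ↔ t⁻¹ * T5.ratG γ * t = T5.ratG γ := by
  change t⁻¹ * T5.ratG γ * (T5.AdelicAut.id K).onG t = T5.ratG γ ↔ _
  rw [onG_id589]

theorem finGL_ratG589 (v : HeightOneSpectrum (𝓞 K)) (γ : GL (Fin 2) K) :
    finGL305 v (T5.ratG γ) = locG305 v γ := by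
  apply Units.ext
  ext i j
  rfl

theorem mem_Tv589 (v : HeightOneSpectrum (𝓞 K)) (γ : GL (Fin 2) K)
    (x : GL (Fin 2) (v.adicCompletion K)) :
    x ∈ T6.twCentSub (T6.glAut (RingEquiv.refl (v.adicCompletion K))) (locG305 v γ)
      ↔ x⁻¹ * locG305 v γ * x = locG305 v γ := by
  change x⁻¹ * locG305 v γ * T6.glAut (RingEquiv.refl _) x = locG305 v γ ↔ _
  rw [H159.glAut_refl159]

theorem mem_Tw589 (w : InfinitePlace K) (γ : GL (Fin 2) K) (x : GL (Fin 2) ℂ) :
    x ∈ cent305 (archG305 w γ) ↔ x⁻¹ * archG305 w γ * x = archG305 w γ := Iff.rfl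

theorem finGL_mem589 (v : HeightOneSpectrum (𝓞 K)) (γ : GL (Fin 2) K) {t : G K}
    (ht : t ∈ tA305 (T5.AdelicAut.id K) γ) :
    finGL305 v t ∈ T6.twCentSub (T6.glAut (RingEquiv.refl (v.adicCompletion K)))
      (locG305 v γ) := by
  rw [mem_Tv589, ← finGL_ratG589, ← map_inv, ← map_mul, ← map_mul, (mem_tA589 γ t).1 ht]

theorem infGL_mem589 (w : InfinitePlace K) (γ : GL (Fin 2) K) {t : G K}
    (ht : t ∈ tA305 (T5.AdelicAut.id K) γ) :
    infGL305 w t ∈ cent305 (archG305 w γ) := by
  rw [mem_Tw589]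
  unfold archG305
  rw [← map_inv, ← map_mul, ← map_mul, (mem_tA589 γ t).1 ht]

/-! ## 1. The groups -/

/-- The adelic torus. -/
abbrev TA589 (γ : GL (Fin 2) K) : Subgroup (G K) := tA305 (T5.AdelicAut.id K) γ

/-- The local torus at a finite place. -/
abbrev Tv589 (γ : GL (Fin 2) K) (v : HeightOneSpectrum (𝓞 K)) :
    Subgroup (GL (Fin 2) (v.adicCompletion K)) :=
  T6.twCentSub (T6.glAut (RingEquiv.refl (v.adicCompletion K))) (locG305 v γ)

/-- The local torus at an infinite place. -/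
abbrev Tw589 (γ : GL (Fin 2) K) (w : InfinitePlace K) : Subgroup (GL (Fin 2) ℂ) :=
  cent305 (archG305 w γ)

/-- The component at `v`. -/
def locHom589 (γ : GL (Fin 2) K) (v : HeightOneSpectrum (𝓞 K)) : TA589 γ →* Tv589 γ v :=
  ((finGL305 v).comp (TA589 γ).subtype).codRestrict _ fun t => finGL_mem589 v γ t.2

/-- The component at `w`. -/
def archHom589 (γ : GL (Fin 2) K) (w : InfinitePlace K) : TA589 γ →* Tw589 γ w :=
  ((infGL305 w).comp (TA589 γ).subtype).codRestrict _ fun t => infGL_mem589 w γ t.2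

@[simp] theorem locHom_coe589 (γ : GL (Fin 2) K) (v : HeightOneSpectrum (𝓞 K)) (t : TA589 γ) :
    ((locHom589 γ v t : Tv589 γ v) : GL (Fin 2) (v.adicCompletion K)) = finGL305 v (t : G K) :=
  rfl

@[simp] theorem archHom_coe589 (γ : GL (Fin 2) K) (w : InfinitePlace K) (t : TA589 γ) :
    ((archHom589 γ w t : Tw589 γ w) : GL (Fin 2) ℂ) = infGL305 w (t : G K) := rfl

/-- The projection to the places of `S` and the infinite places. -/
def pS589 (γ : GL (Fin 2) K) (S : Finset (HeightOneSpectrum (𝓞 K))) :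
    TA589 γ →* ((∀ v : S, Tv589 γ v.1) × (∀ w : InfinitePlace K, Tw589 γ w)) :=
  MonoidHom.prod (MonoidHom.pi fun v : S => locHom589 γ v.1)
    (MonoidHom.pi fun w : InfinitePlace K => archHom589 γ w)

/-- The subgroup `{y : y_v ∈ GL₂(𝒪_v), v ∉ S}` of `GL₂(𝔸_K)`. -/
def outG589 (S : Finset (HeightOneSpectrum (𝓞 K))) : Subgroup (G K) :=
  T3.M.H709.outUM709 (⊤ : Ideal (𝓞 K)) S

omit [NumberField K] in
theorem not_dvd_top589 (v : HeightOneSpectrum (𝓞 K)) : ¬ v.asIdeal ∣ (⊤ : Ideal (𝓞 K)) := by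
  intro h
  have h1 : (⊤ : Ideal (𝓞 K)) ≤ v.asIdeal := Ideal.le_of_dvd h
  exact v.isPrime.ne_top (top_le_iff.1 h1)

theorem isIntGL_iff589 (v : HeightOneSpectrum (𝓞 K)) (y : G K) :
    T3.AS.IsIntGL v (T3.AS.finGL K v y) ↔ IsIntegralAt v y ∧ IsIntegralAt v y⁻¹ := by
  constructor
  · intro h
    refine ⟨fun i j => (h i j).1, fun i j => ?_⟩
    have := (h i j).2
    rw [← map_inv] at this
    exact this
  · rintro ⟨h1, h2⟩ i j
    refine ⟨h1 i j, ?_⟩
    rw [← map_inv]
    exact h2 i j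

theorem mem_outG589 (S : Finset (HeightOneSpectrum (𝓞 K))) (y : G K) :
    y ∈ outG589 S ↔ OutT305 S y := by
  unfold outG589
  rw [T3.M.H709.mem_outUM709, T3.M.H709.outsideUM_iff709]
  constructor
  · intro h v hv
    exact (isIntGL_iff589 v y).1 (T3.H245.isIntGL_of_mem_locU245 (h v hv))
  · intro h v hv
    exact T3.H245.mem_locU_of_isIntGL245 (not_dvd_top589 v) ((isIntGL_iff589 v y).2 (h v hv))

theorem isOpen_outG589 (S : Finset (HeightOneSpectrum (𝓞 K))) :
    IsOpen (outG589 S : Set (G K)) :=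
  T3.M.H709.isOpen_outUM709 (by simp) S

/-- The open subgroup `E_S` of the adelic torus. -/
def ES589 (γ : GL (Fin 2) K) (S : Finset (HeightOneSpectrum (𝓞 K))) : Subgroup (TA589 γ) :=
  (outG589 S).comap (TA589 γ).subtype

theorem mem_ES589 (γ : GL (Fin 2) K) (S : Finset (HeightOneSpectrum (𝓞 K))) (t : TA589 γ) :
    t ∈ ES589 γ S ↔ OutT305 S (t : G K) :=
  mem_outG589 S _

theorem coe_ES589 (γ : GL (Fin 2) K) (S : Finset (HeightOneSpectrum (𝓞 K))) :
    (ES589 γ S : Set (TA589 γ)) = {t : TA589 γ | OutT305 S (t : G K)} := by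
  ext t
  exact mem_ES589 γ S t

theorem isOpen_ES589 (γ : GL (Fin 2) K) (S : Finset (HeightOneSpectrum (𝓞 K))) :
    IsOpen (ES589 γ S : Set (TA589 γ)) :=
  (isOpen_outG589 S).preimage continuous_subtype_val

theorem continuous_finGL589 (v : HeightOneSpectrum (𝓞 K)) : Continuous (finGL305 (K := K) v) :=
  T3.H245.continuous_finGL245 v

theorem continuous_infGL589 (w : InfinitePlace K) : Continuous (infGL305 (K := K) w) :=
  T3.H245.continuous_infGL245 w

theorem continuous_locHom589 (γ : GL (Fin 2) K) (v : HeightOneSpectrum (𝓞 K)) :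
    Continuous (locHom589 γ v) :=
  ((continuous_finGL589 v).comp continuous_subtype_val).subtype_mk _

theorem continuous_archHom589 (γ : GL (Fin 2) K) (w : InfinitePlace K) :
    Continuous (archHom589 γ w) :=
  ((continuous_infGL589 w).comp continuous_subtype_val).subtype_mk _

theorem continuous_pS589 (γ : GL (Fin 2) K) (S : Finset (HeightOneSpectrum (𝓞 K))) :
    Continuous (pS589 γ S) :=
  (continuous_pi fun v => continuous_locHom589 γ v.1).prodMk
    (continuous_pi fun w => continuous_archHom589 γ w)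

/-! ## 2. Sections: the projection is onto -/

theorem G_ext589 {g g' : G K} (hfin : ∀ v, finGL305 v g = finGL305 v g')
    (hinf : ∀ w, infGL305 w g = infGL305 w g') : g = g' := by
  apply Units.ext
  ext i j : 2
  refine T1.H724.adl_ext724 (fun w => ?_) (fun v => ?_)
  · have h := congrArg (fun x : GL (Fin 2) ℂ => (x : Matrix (Fin 2) (Fin 2) ℂ) i j) (hinf w)
    exact (InfinitePlace.Completion.extensionEmbedding w).injective h
  · exact congrArg
      (fun x : GL (Fin 2) (v.adicCompletion K) =>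
        (x : Matrix (Fin 2) (Fin 2) (v.adicCompletion K)) i j) (hfin v)

/-- An element with prescribed components at the places of `S`, trivial elsewhere. -/
theorem exists_fin589 (S : Finset (HeightOneSpectrum (𝓞 K)))
    (f : ∀ v : HeightOneSpectrum (𝓞 K), GL (Fin 2) (v.adicCompletion K)) :
    ∃ g : G K, (∀ v ∈ S, finGL305 v g = f v) ∧ (∀ v, v ∉ S → finGL305 v g = 1) ∧
      ∀ w, infGL305 w g = 1 := by
  classical
  induction S using Finset.induction_on with
  | empty => exact ⟨1, fun v hv => absurd hv (Finset.notMem_empty v), fun v _ => map_one _,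
      fun w => map_one _⟩
  | insert v₀ S hv₀ ih =>
    obtain ⟨g, h1, h2, h3⟩ := ih
    refine ⟨T3.H57.finEmb57 v₀ (f v₀) * g, ?_, ?_, ?_⟩
    · intro v hv
      rw [map_mul]
      rcases Finset.mem_insert.1 hv with rfl | hv
      · rw [finGL305_eq589, T3.H57.finGL_finEmb57, ← finGL305_eq589, h2 v hv₀, mul_one]
      · have hne : v ≠ v₀ := fun h => hv₀ (h ▸ hv)
        rw [finGL305_eq589, T3.H57.finGL_finEmb_ne57 v₀ _ v hne, ← finGL305_eq589, h1 v hv,
          one_mul]
    · intro v hv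
      have hne : v ≠ v₀ := fun h => hv (h ▸ Finset.mem_insert_self _ _)
      have hvS : v ∉ S := fun h => hv (Finset.mem_insert_of_mem h)
      rw [map_mul, finGL305_eq589, T3.H57.finGL_finEmb_ne57 v₀ _ v hne, ← finGL305_eq589,
        h2 v hvS, one_mul]
    · intro w
      rw [map_mul, infGL305_eq589, T3.H57.infGL_finEmb57, ← infGL305_eq589, h3 w, one_mul]

theorem outT_of_triv589 (S : Finset (HeightOneSpectrum (𝓞 K))) (g : G K)
    (h : ∀ v, v ∉ S → finGL305 v g = 1) : OutT305 S g := by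
  intro v hv
  rw [← isIntGL_iff589, ← finGL305_eq589, h v hv]
  exact T3.H245.isIntGL_one245 v

/-- The projection maps `E_S` onto the product of the local tori. -/
theorem pS_surj589 (hK : ∀ w : InfinitePlace K, w.IsComplex) (γ : GL (Fin 2) K)
    (S : Finset (HeightOneSpectrum (𝓞 K)))
    (h : (∀ v : S, Tv589 γ v.1) × (∀ w : InfinitePlace K, Tw589 γ w)) :
    ∃ e ∈ ES589 γ S, pS589 γ S e = h := by
  classical
  obtain ⟨g₁, h1, h2, h3⟩ := exists_fin589 S
    (fun v => if hv : v ∈ S then ((h.1 ⟨v, hv⟩ : Tv589 γ v) : GL (Fin 2) (v.adicCompletion K))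
      else 1)
  set g₂ : G K := T3.H57.infEmb57 hK (fun w => ((h.2 w : Tw589 γ w) : GL (Fin 2) ℂ)) with hg₂
  have hfin : ∀ v, finGL305 v (g₁ * g₂)
      = if hv : v ∈ S then ((h.1 ⟨v, hv⟩ : Tv589 γ v) : GL (Fin 2) (v.adicCompletion K))
        else 1 := by
    intro v
    rw [map_mul, hg₂, finGL305_eq589, T3.H57.finGL_infEmb57, mul_one, ← finGL305_eq589]
    by_cases hv : v ∈ S
    · rw [h1 v hv]
    · rw [h2 v hv, dif_neg hv]
  have hinf : ∀ w, infGL305 w (g₁ * g₂) = ((h.2 w : Tw589 γ w) : GL (Fin 2) ℂ) := by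
    intro w
    rw [map_mul, h3 w, one_mul, hg₂, infGL305_eq589, T3.H57.infGL_infEmb57]
  have hmem : g₁ * g₂ ∈ TA589 γ := by
    rw [mem_tA589]
    refine G_ext589 (fun v => ?_) (fun w => ?_)
    · rw [map_mul, map_mul, map_inv, hfin v, finGL_ratG589]
      by_cases hv : v ∈ S
      · rw [dif_pos hv]
        exact (mem_Tv589 v γ _).1 (h.1 ⟨v, hv⟩).2
      · rw [dif_neg hv]
        simp
    · rw [map_mul, map_mul, map_inv, hinf w]
      exact (mem_Tw589 w γ _).1 (h.2 w).2
  refine ⟨⟨g₁ * g₂, hmem⟩, ?_, ?_⟩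
  · rw [mem_ES589]
    refine outT_of_triv589 S _ fun v hv => ?_
    rw [hfin v, dif_neg hv]
  · refine Prod.ext (funext fun v => Subtype.ext ?_) (funext fun w => Subtype.ext ?_)
    · change finGL305 v.1 (g₁ * g₂) = _
      rw [hfin v.1, dif_pos v.2]
    · change infGL305 w (g₁ * g₂) = _
      exact hinf w

/-! ## 3. The projection is proper on `E_S` -/

/-- A compact subset of `K_v` has a nonzero global denominator. -/
theorem exists_denom_compact589 (v : HeightOneSpectrum (𝓞 K)) (C : Set (v.adicCompletion K))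
    (hC : IsCompact C) :
    ∃ a : 𝓞 K, a ≠ 0 ∧ ∀ x ∈ C, T3.H245.toCompl245 K v a * x ∈ v.adicCompletionIntegers K := by
  classical
  have hO : IsOpen (v.adicCompletionIntegers K : Set (v.adicCompletion K)) :=
    Valued.isOpen_valuationSubring _
  have hU : ∀ x ∈ C, {y : v.adicCompletion K | y - x ∈ v.adicCompletionIntegers K} ∈ nhds x := by
    intro x _
    have hopen : IsOpen {y : v.adicCompletion K | y - x ∈ v.adicCompletionIntegers K} :=
      hO.preimage (continuous_id.sub continuous_const)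
    refine hopen.mem_nhds ?_
    change x - x ∈ v.adicCompletionIntegers K
    rw [sub_self]
    exact zero_mem _
  obtain ⟨t, -, ht⟩ := hC.elim_nhds_subcover
    (fun x => {y : v.adicCompletion K | y - x ∈ v.adicCompletionIntegers K}) hU
  obtain ⟨a, ha0, ha⟩ := T3.H245.exists_common_denom245 v t
  refine ⟨a, ha0, fun y hy => ?_⟩
  obtain ⟨x, hx, hyx⟩ : ∃ x ∈ t, y - x ∈ v.adicCompletionIntegers K := by
    have := ht hy
    simp only [Set.mem_iUnion] at this
    obtain ⟨x, hx, h⟩ := this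
    exact ⟨x, hx, h⟩
  have e : T3.H245.toCompl245 K v a * y
      = T3.H245.toCompl245 K v a * x + T3.H245.toCompl245 K v a * (y - x) := by ring
  rw [e]
  exact add_mem (ha x hx) (mul_mem (T3.H245.toCompl245_mem_integers K v a) hyx)

/-- A common denominator for compact sets at the places of `S`. -/
theorem exists_denom_S589 (S : Finset (HeightOneSpectrum (𝓞 K)))
    (D : ∀ v : HeightOneSpectrum (𝓞 K), Set (v.adicCompletion K))
    (hD : ∀ v ∈ S, IsCompact (D v)) :
    ∃ a : 𝓞 K, a ≠ 0 ∧ ∀ v ∈ S, ∀ x ∈ D v,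
      T3.H245.toCompl245 K v a * x ∈ v.adicCompletionIntegers K := by
  classical
  induction S using Finset.induction_on with
  | empty => exact ⟨1, one_ne_zero, fun v hv => absurd hv (Finset.notMem_empty v)⟩
  | insert v₀ S _ ih =>
    obtain ⟨a, ha0, ha⟩ := ih fun v hv => hD v (Finset.mem_insert_of_mem hv)
    obtain ⟨b, hb0, hb⟩ := exists_denom_compact589 v₀ (D v₀) (hD v₀ (Finset.mem_insert_self _ _))
    refine ⟨a * b, mul_ne_zero ha0 hb0, ?_⟩
    intro v hv x hx
    rw [T3.H245.toCompl245_mul]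
    rcases Finset.mem_insert.1 hv with hv | hv
    · subst hv
      rw [mul_assoc]
      exact mul_mem (T3.H245.toCompl245_mem_integers K v a) (hb x hx)
    · rw [mul_comm (T3.H245.toCompl245 K v a), mul_assoc]
      exact mul_mem (T3.H245.toCompl245_mem_integers K v b) (ha v hv x hx)

theorem isClosed_TA589 (γ : GL (Fin 2) K) : IsClosed (TA589 γ : Set (G K)) := by
  have := H11.LC.t2Space_GL2_adeleRing_h11 K
  have e : (TA589 γ : Set (G K)) = {t : G K | t⁻¹ * T5.ratG γ * t = T5.ratG γ} := by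
    ext t
    exact mem_tA589 γ t
  rw [e]
  exact isClosed_eq ((continuous_inv.mul continuous_const).mul continuous_id) continuous_const

/-- The product of the local tori. -/
abbrev HS589 (γ : GL (Fin 2) K) (S : Finset (HeightOneSpectrum (𝓞 K))) : Type :=
  (∀ v : S, Tv589 γ v.1) × (∀ w : InfinitePlace K, Tw589 γ w)

/-- The component at `v ∈ S`, in `GL₂(K_v)`. -/
def compV589 (γ : GL (Fin 2) K) (S : Finset (HeightOneSpectrum (𝓞 K)))
    (v : HeightOneSpectrum (𝓞 K)) (hv : v ∈ S) (h : HS589 γ S) :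
    GL (Fin 2) (v.adicCompletion K) :=
  ((h.1 ⟨v, hv⟩ : Tv589 γ v) : GL (Fin 2) (v.adicCompletion K))

/-- The component at `w`, in `GL₂(ℂ)`. -/
def compW589 (γ : GL (Fin 2) K) (S : Finset (HeightOneSpectrum (𝓞 K)))
    (w : InfinitePlace K) (h : HS589 γ S) : GL (Fin 2) ℂ :=
  ((h.2 w : Tw589 γ w) : GL (Fin 2) ℂ)

theorem continuous_compV589 (γ : GL (Fin 2) K) (S : Finset (HeightOneSpectrum (𝓞 K)))
    (v : HeightOneSpectrum (𝓞 K)) (hv : v ∈ S) : Continuous (compV589 γ S v hv) :=
  continuous_subtype_val.comp ((continuous_apply (⟨v, hv⟩ : S)).comp continuous_fst)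

theorem continuous_compW589 (γ : GL (Fin 2) K) (S : Finset (HeightOneSpectrum (𝓞 K)))
    (w : InfinitePlace K) : Continuous (compW589 γ S w) :=
  continuous_subtype_val.comp ((continuous_apply w).comp continuous_snd)

theorem compV_pS589 (γ : GL (Fin 2) K) (S : Finset (HeightOneSpectrum (𝓞 K)))
    (v : HeightOneSpectrum (𝓞 K)) (hv : v ∈ S) (t : TA589 γ) :
    compV589 γ S v hv (pS589 γ S t) = finGL305 v (t : G K) := rfl

theorem compW_pS589 (γ : GL (Fin 2) K) (S : Finset (HeightOneSpectrum (𝓞 K)))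
    (w : InfinitePlace K) (t : TA589 γ) :
    compW589 γ S w (pS589 γ S t) = infGL305 w (t : G K) := rfl

open Classical in
/-- The entries of the components at `v` of the elements of a set. -/
def entrySet589 (γ : GL (Fin 2) K) (S : Finset (HeightOneSpectrum (𝓞 K)))
    (C : Set (HS589 γ S)) (v : HeightOneSpectrum (𝓞 K)) : Set (v.adicCompletion K) :=
  if hv : v ∈ S then
    ⋃ p : Fin 2 × Fin 2,
      ((fun h : HS589 γ S =>
        (compV589 γ S v hv h : Matrix (Fin 2) (Fin 2) (v.adicCompletion K)) p.1 p.2) '' C)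
      ∪ ((fun h : HS589 γ S =>
        (((compV589 γ S v hv h)⁻¹ : GL (Fin 2) (v.adicCompletion K)) :
          Matrix (Fin 2) (Fin 2) (v.adicCompletion K)) p.1 p.2) '' C)
  else ∅

theorem isCompact_entrySet589 (γ : GL (Fin 2) K) (S : Finset (HeightOneSpectrum (𝓞 K)))
    (C : Set (HS589 γ S)) (hC : IsCompact C) (v : HeightOneSpectrum (𝓞 K)) :
    IsCompact (entrySet589 γ S C v) := by
  unfold entrySet589
  split_ifs with hv
  · refine isCompact_iUnion fun p => (hC.image ?_).union (hC.image ?_)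
    · exact (Units.continuous_val.comp (continuous_compV589 γ S v hv)).matrix_elem p.1 p.2
    · exact (Units.continuous_val.comp
        (continuous_inv.comp (continuous_compV589 γ S v hv))).matrix_elem p.1 p.2
  · exact isCompact_empty

theorem mem_entrySet589 (γ : GL (Fin 2) K) (S : Finset (HeightOneSpectrum (𝓞 K)))
    (C : Set (HS589 γ S)) (v : HeightOneSpectrum (𝓞 K)) (hv : v ∈ S) {h : HS589 γ S}
    (hh : h ∈ C) (i j : Fin 2) :
    (compV589 γ S v hv h : Matrix (Fin 2) (Fin 2) (v.adicCompletion K)) i j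
        ∈ entrySet589 γ S C v ∧
      (((compV589 γ S v hv h)⁻¹ : GL (Fin 2) (v.adicCompletion K)) :
        Matrix (Fin 2) (Fin 2) (v.adicCompletion K)) i j ∈ entrySet589 γ S C v := by
  unfold entrySet589
  rw [dif_pos hv]
  constructor
  · exact Set.mem_iUnion.2 ⟨(i, j), Or.inl ⟨h, hh, rfl⟩⟩
  · exact Set.mem_iUnion.2 ⟨(i, j), Or.inr ⟨h, hh, rfl⟩⟩

/-- The archimedean size of an element of the product of the local tori. -/
def archSize589 (γ : GL (Fin 2) K) (S : Finset (HeightOneSpectrum (𝓞 K))) (h : HS589 γ S) : ℝ :=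
  ∑ w : InfinitePlace K, ∑ i : Fin 2, ∑ j : Fin 2,
    (‖(compW589 γ S w h : Matrix (Fin 2) (Fin 2) ℂ) i j‖
      + ‖(((compW589 γ S w h)⁻¹ : GL (Fin 2) ℂ) : Matrix (Fin 2) (Fin 2) ℂ) i j‖)

theorem continuous_archSize589 (γ : GL (Fin 2) K) (S : Finset (HeightOneSpectrum (𝓞 K))) :
    Continuous (archSize589 γ S) := by
  unfold archSize589
  refine continuous_finset_sum _ fun w _ => continuous_finset_sum _ fun i _ =>
    continuous_finset_sum _ fun j _ => ?_
  refine Continuous.add ?_ ?_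
  · exact ((Units.continuous_val.comp (continuous_compW589 γ S w)).matrix_elem i j).norm
  · exact ((Units.continuous_val.comp
      (continuous_inv.comp (continuous_compW589 γ S w))).matrix_elem i j).norm

theorem le_archSize589 (γ : GL (Fin 2) K) (S : Finset (HeightOneSpectrum (𝓞 K)))
    (h : HS589 γ S) (w : InfinitePlace K) (i j : Fin 2) :
    ‖(compW589 γ S w h : Matrix (Fin 2) (Fin 2) ℂ) i j‖ ≤ archSize589 γ S h ∧
      ‖(((compW589 γ S w h)⁻¹ : GL (Fin 2) ℂ) : Matrix (Fin 2) (Fin 2) ℂ) i j‖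
        ≤ archSize589 γ S h := by
  have h3 : (‖(compW589 γ S w h : Matrix (Fin 2) (Fin 2) ℂ) i j‖
      + ‖(((compW589 γ S w h)⁻¹ : GL (Fin 2) ℂ) : Matrix (Fin 2) (Fin 2) ℂ) i j‖)
      ≤ archSize589 γ S h := by
    unfold archSize589
    have e1 := Finset.single_le_sum (f := fun j : Fin 2 =>
      (‖(compW589 γ S w h : Matrix (Fin 2) (Fin 2) ℂ) i j‖
        + ‖(((compW589 γ S w h)⁻¹ : GL (Fin 2) ℂ) : Matrix (Fin 2) (Fin 2) ℂ) i j‖))
      (fun j _ => by positivity) (Finset.mem_univ j)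
    have e2 := Finset.single_le_sum (f := fun i : Fin 2 => ∑ j : Fin 2,
      (‖(compW589 γ S w h : Matrix (Fin 2) (Fin 2) ℂ) i j‖
        + ‖(((compW589 γ S w h)⁻¹ : GL (Fin 2) ℂ) : Matrix (Fin 2) (Fin 2) ℂ) i j‖))
      (fun i _ => by positivity) (Finset.mem_univ i)
    have e3 := Finset.single_le_sum (f := fun w : InfinitePlace K => ∑ i : Fin 2, ∑ j : Fin 2,
      (‖(compW589 γ S w h : Matrix (Fin 2) (Fin 2) ℂ) i j‖
        + ‖(((compW589 γ S w h)⁻¹ : GL (Fin 2) ℂ) : Matrix (Fin 2) (Fin 2) ℂ) i j‖))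
      (fun w _ => by positivity) (Finset.mem_univ w)
    exact e1.trans (e2.trans e3)
  constructor
  · exact le_trans (le_add_of_nonneg_right (norm_nonneg _)) h3
  · exact le_trans (le_add_of_nonneg_left (norm_nonneg _)) h3

/-- **The projection is proper on `E_S`.** -/
theorem pS_proper589 (γ : GL (Fin 2) K) (S : Finset (HeightOneSpectrum (𝓞 K)))
    (C : Set (HS589 γ S)) (hC : IsCompact C) :
    ∃ C' : Set (TA589 γ), IsCompact C' ∧ pS589 γ S ⁻¹' C ∩ (ES589 γ S : Set (TA589 γ)) ⊆ C' := by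
  obtain ⟨a, ha0, ha⟩ := exists_denom_S589 S (entrySet589 γ S C)
    (fun v _ => isCompact_entrySet589 γ S C hC v)
  obtain ⟨ρ, hρ⟩ := hC.exists_bound_of_continuousOn (continuous_archSize589 γ S).continuousOn
  have hemb : Topology.IsClosedEmbedding (Subtype.val : TA589 γ → G K) :=
    (isClosed_TA589 γ).isClosedEmbedding_subtypeVal
  refine ⟨Subtype.val ⁻¹' (T3.H245.boxG245 K ρ a),
    hemb.isCompact_preimage (T3.H245.isCompact_boxG245 ρ a), ?_⟩
  rintro t ⟨htC, htE⟩
  have htC' : pS589 γ S t ∈ C := htC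
  have hO : OutT305 S (t : G K) := (mem_ES589 γ S t).1 htE
  have key : ∀ g : G K,
      (∀ (w : InfinitePlace K) (i j : Fin 2),
        ‖((infGL305 w g : GL (Fin 2) ℂ) : Matrix (Fin 2) (Fin 2) ℂ) i j‖ ≤ ρ) →
      (∀ (v : HeightOneSpectrum (𝓞 K)) (i j : Fin 2),
        T3.H245.toCompl245 K v a * ((finGL305 v g : GL (Fin 2) (v.adicCompletion K)) :
          Matrix (Fin 2) (Fin 2) (v.adicCompletion K)) i j ∈ v.adicCompletionIntegers K) →
      (g : Matrix (Fin 2) (Fin 2) (Adl K)) ∈ T3.H245.boxMat245 K ρ a := by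
    intro g h1 h2 i j
    exact ⟨fun w => h1 w i j, T3.H245.mem_boxFin245 ha0 fun v => h2 v i j⟩
  have hsize : archSize589 γ S (pS589 γ S t) ≤ ρ := by
    have h0 := hρ _ htC'
    rw [Real.norm_eq_abs] at h0
    exact (le_abs_self _).trans h0
  refine ⟨key (t : G K) ?_ ?_, key ((t : G K)⁻¹) ?_ ?_⟩
  · intro w i j
    have := (le_archSize589 γ S (pS589 γ S t) w i j).1
    rw [compW_pS589] at this
    exact this.trans hsize
  · intro v i j
    by_cases hv : v ∈ S
    · have := (mem_entrySet589 γ S C v hv htC' i j).1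
      rw [compV_pS589] at this
      exact ha v hv _ this
    · exact mul_mem (T3.H245.toCompl245_mem_integers K v a) ((hO v hv).1 i j)
  · intro w i j
    have := (le_archSize589 γ S (pS589 γ S t) w i j).2
    rw [compW_pS589, ← map_inv] at this
    exact this.trans hsize
  · intro v i j
    by_cases hv : v ∈ S
    · have := (mem_entrySet589 γ S C v hv htC' i j).2
      rw [compV_pS589, ← map_inv] at this
      exact ha v hv _ this
    · exact mul_mem (T3.H245.toCompl245_mem_integers K v a) ((hO v hv).2 i j)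

/-! ## 4. Topological and measurable structures -/

theorem t2_GLv589 (v : HeightOneSpectrum (𝓞 K)) : T2Space (GL (Fin 2) (v.adicCompletion K)) := by
  have := H11.LC.t2Space_matrix_h11 (Fin 2) (v.adicCompletion K)
  infer_instance

theorem sc_GLv589 (v : HeightOneSpectrum (𝓞 K)) :
    SecondCountableTopology (GL (Fin 2) (v.adicCompletion K)) := by
  have := H11.SC.secondCountableTopology_adicCompletion_h11 K v
  have := H11.SC.secondCountableTopology_matrix_h11 (Fin 2) (v.adicCompletion K)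
  exact H11.SC.secondCountableTopology_units_h11 _

theorem isClosed_Tv589 (γ : GL (Fin 2) K) (v : HeightOneSpectrum (𝓞 K)) :
    IsClosed (Tv589 γ v : Set (GL (Fin 2) (v.adicCompletion K))) := by
  have := t2_GLv589 (K := K) v
  have e : (Tv589 γ v : Set (GL (Fin 2) (v.adicCompletion K)))
      = {x | x⁻¹ * locG305 v γ * x = locG305 v γ} := by
    ext x
    exact mem_Tv589 v γ x
  rw [e]
  exact isClosed_eq ((continuous_inv.mul continuous_const).mul continuous_id) continuous_const

theorem isClosed_Tw589 (γ : GL (Fin 2) K) (w : InfinitePlace K) :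
    IsClosed (Tw589 γ w : Set (GL (Fin 2) ℂ)) := by
  have e : (Tw589 γ w : Set (GL (Fin 2) ℂ))
      = {x | x⁻¹ * archG305 w γ * x = archG305 w γ} := by
    ext x
    exact mem_Tw589 w γ x
  rw [e]
  exact isClosed_eq ((continuous_inv.mul continuous_const).mul continuous_id) continuous_const

theorem lc_Tv589 (γ : GL (Fin 2) K) (v : HeightOneSpectrum (𝓞 K)) :
    LocallyCompactSpace (Tv589 γ v) := by
  have := H11.LC.locallyCompactSpace_GL2_adicCompletion_h11 K v
  exact (isClosed_Tv589 γ v).isClosedEmbedding_subtypeVal.locallyCompactSpace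

theorem lc_Tw589 (γ : GL (Fin 2) K) (w : InfinitePlace K) :
    LocallyCompactSpace (Tw589 γ w) := by
  have := T3.H57.locallyCompact_GL2C57
  exact (isClosed_Tw589 γ w).isClosedEmbedding_subtypeVal.locallyCompactSpace

theorem sc_Tv589 (γ : GL (Fin 2) K) (v : HeightOneSpectrum (𝓞 K)) :
    SecondCountableTopology (Tv589 γ v) := by
  have := sc_GLv589 (K := K) v
  exact (Topology.IsEmbedding.subtypeVal (p := fun x => x ∈ Tv589 γ v)).secondCountableTopology

theorem sc_Tw589 (γ : GL (Fin 2) K) (w : InfinitePlace K) :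
    SecondCountableTopology (Tw589 γ w) := by
  have := T3.H57.secondCountable_GL2C57
  exact (Topology.IsEmbedding.subtypeVal (p := fun x => x ∈ Tw589 γ w)).secondCountableTopology

theorem sc_TA589 (γ : GL (Fin 2) K) : SecondCountableTopology (TA589 γ) := by
  have := H11.SC.secondCountableTopology_GL2_adeleRing_h11 K
  exact (Topology.IsEmbedding.subtypeVal (p := fun x => x ∈ TA589 γ)).secondCountableTopology

section Meas

/-- Borel structures (the instances of the statement). -/
local instance instMSTA589 (γ : GL (Fin 2) K) : MeasurableSpace (TA589 γ) := borel _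

local instance instBSTA589 (γ : GL (Fin 2) K) : BorelSpace (TA589 γ) := ⟨rfl⟩

local instance instMSGv589 (v : HeightOneSpectrum (𝓞 K)) :
    MeasurableSpace (GL (Fin 2) (v.adicCompletion K)) := borel _

local instance instBSGv589 (v : HeightOneSpectrum (𝓞 K)) :
    BorelSpace (GL (Fin 2) (v.adicCompletion K)) := ⟨rfl⟩

local instance instMSGC589 : MeasurableSpace (GL (Fin 2) ℂ) := borel _

local instance instBSGC589 : BorelSpace (GL (Fin 2) ℂ) := ⟨rfl⟩

local instance (priority := high) instMSTv589 (γ : GL (Fin 2) K)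
    (v : HeightOneSpectrum (𝓞 K)) : MeasurableSpace (Tv589 γ v) := borel _

local instance (priority := high) instBSTv589 (γ : GL (Fin 2) K)
    (v : HeightOneSpectrum (𝓞 K)) : BorelSpace (Tv589 γ v) := ⟨rfl⟩

local instance (priority := high) instMSTw589 (γ : GL (Fin 2) K) (w : InfinitePlace K) :
    MeasurableSpace (Tw589 γ w) := borel _

local instance (priority := high) instBSTw589 (γ : GL (Fin 2) K) (w : InfinitePlace K) :
    BorelSpace (Tw589 γ w) := ⟨rfl⟩

local instance instLCTv589 (γ : GL (Fin 2) K) (v : HeightOneSpectrum (𝓞 K)) :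
    LocallyCompactSpace (Tv589 γ v) := lc_Tv589 γ v

local instance instLCTw589 (γ : GL (Fin 2) K) (w : InfinitePlace K) :
    LocallyCompactSpace (Tw589 γ w) := lc_Tw589 γ w

local instance instSCTv589 (γ : GL (Fin 2) K) (v : HeightOneSpectrum (𝓞 K)) :
    SecondCountableTopology (Tv589 γ v) := sc_Tv589 γ v

local instance instSCTw589 (γ : GL (Fin 2) K) (w : InfinitePlace K) :
    SecondCountableTopology (Tw589 γ w) := sc_Tw589 γ w

/-- **The image of `μT|_{E_S}` is a positive multiple of the product of the local measures.** -/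
theorem exists_cS589 (hK : ∀ w : InfinitePlace K, w.IsComplex) (γ : GL (Fin 2) K)
    (μT : Measure (TA589 γ)) [μT.IsHaarMeasure] (S : Finset (HeightOneSpectrum (𝓞 K)))
    (μ₁ : ∀ v : S, Measure (Tv589 γ v.1)) [∀ v, (μ₁ v).IsHaarMeasure]
    (μ₂ : ∀ w : InfinitePlace K, Measure (Tw589 γ w)) [∀ w, (μ₂ w).IsHaarMeasure] :
    ∃ c : NNReal, 0 < c ∧
      Measure.map (pS589 γ S) (μT.restrict (ES589 γ S : Set (TA589 γ)))
        = c • ((Measure.pi μ₁).prod (Measure.pi μ₂)) :=
  exists_smul_prod589 μT (ES589 γ S) (isOpen_ES589 γ S) (pS589 γ S) (continuous_pS589 γ S)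
    (pS_surj589 hK γ S) (fun C hC _ => pS_proper589 γ S C hC) μ₁ μ₂

end Meas

/-! ## 5. The boxes: the constant does not depend on `S` -/

theorem inU_iff589 (v : HeightOneSpectrum (𝓞 K)) (y : G K) :
    T6.InU 0 (finGL305 v y) ↔ IsIntegralAt v y ∧ IsIntegralAt v y⁻¹ := by
  constructor
  · intro h
    refine ⟨fun i j => ?_, fun i j => ?_⟩
    · rw [HeightOneSpectrum.mem_adicCompletionIntegers]
      exact T6.H687.entry_le_one_of_inU_h687 h i j
    · have := T6.H687.entry_inv_le_one_of_inU_h687 h i j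
      rw [← map_inv] at this
      rw [HeightOneSpectrum.mem_adicCompletionIntegers]
      exact this
  · rintro ⟨h1, h2⟩
    refine T6.H288.H546.inU_zero_of_integral_h546 _ (fun i j => ?_) (fun i j => ?_)
    · have := h1 i j
      rw [HeightOneSpectrum.mem_adicCompletionIntegers] at this
      exact this
    · rw [← map_inv]
      have := h2 i j
      rw [HeightOneSpectrum.mem_adicCompletionIntegers] at this
      exact this

/-- The maximal compact subgroup of the local torus (the set of `IsLocTor305`). -/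
def Tc589 (γ : GL (Fin 2) K) (v : HeightOneSpectrum (𝓞 K)) : Set (Tv589 γ v) :=
  {t | Valued.v ((t : GL (Fin 2) (v.adicCompletion K)) :
      Matrix (Fin 2) (Fin 2) (v.adicCompletion K)).trace ≤ 1 ∧
    Valued.v ((t : GL (Fin 2) (v.adicCompletion K)) :
      Matrix (Fin 2) (Fin 2) (v.adicCompletion K)).det = 1}

/-- At a good place, for an element of the adelic torus: compact part = integral. -/
theorem tc_iff_int589 (γ : GL (Fin 2) K) (v : HeightOneSpectrum (𝓞 K))
    (hg : T6.InU 0 (locG305 v γ) ∧ Valued.v (T6.disc (locG305 v γ)) = 1) (t : TA589 γ) :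
    locHom589 γ v t ∈ Tc589 γ v ↔ IsIntegralAt v (t : G K) ∧ IsIntegralAt v (t : G K)⁻¹ := by
  rw [← inU_iff589]
  constructor
  · rintro ⟨h1, h2⟩
    have hc : (finGL305 v (t : G K))⁻¹ * locG305 v γ * finGL305 v (t : G K) = locG305 v γ :=
      (mem_Tv589 v γ _).1 (finGL_mem589 v γ t.2)
    have hcomm : finGL305 v (t : G K) * locG305 v γ = locG305 v γ * finGL305 v (t : G K) := by
      have := congrArg (fun x => finGL305 v (t : G K) * x) hc
      simp only [mul_assoc, mul_inv_cancel_left] at this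
      exact this.symm
    exact H159.cent_compact159 (locG305 v γ) (finGL305 v (t : G K)) hg.1 hg.2 hcomm.symm.symm
      h1 h2
  · intro h
    refine ⟨?_, T6.H687.v_det_eq_one_of_inU_h687 h⟩
    change Valued.v ((finGL305 v (t : G K) : GL (Fin 2) (v.adicCompletion K)) :
      Matrix (Fin 2) (Fin 2) (v.adicCompletion K)).trace ≤ 1
    rw [Matrix.trace_fin_two]
    exact (Valuation.map_add _ _ _).trans
      (max_le (T6.H687.entry_le_one_of_inU_h687 h 0 0) (T6.H687.entry_le_one_of_inU_h687 h 1 1))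

section Meas2

attribute [local instance] instMSTA589 instBSTA589 instMSGv589 instBSGv589 instMSGC589
  instBSGC589 instMSTv589 instBSTv589 instMSTw589 instBSTw589 instLCTv589 instLCTw589
  instSCTv589 instSCTw589

theorem measurableSet_Tc589 (γ : GL (Fin 2) K) (v : HeightOneSpectrum (𝓞 K)) :
    MeasurableSet (Tc589 γ v) := by
  have hval : Continuous (fun t : Tv589 γ v =>
      ((t : GL (Fin 2) (v.adicCompletion K)) : Matrix (Fin 2) (Fin 2) (v.adicCompletion K))) :=
    Units.continuous_val.comp continuous_subtype_val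
  have htr : Continuous (fun t : Tv589 γ v =>
      ((t : GL (Fin 2) (v.adicCompletion K)) :
        Matrix (Fin 2) (Fin 2) (v.adicCompletion K)).trace) := by
    have e : (fun t : Tv589 γ v => ((t : GL (Fin 2) (v.adicCompletion K)) :
        Matrix (Fin 2) (Fin 2) (v.adicCompletion K)).trace)
        = fun t : Tv589 γ v => ((t : GL (Fin 2) (v.adicCompletion K)) :
            Matrix (Fin 2) (Fin 2) (v.adicCompletion K)) 0 0
          + ((t : GL (Fin 2) (v.adicCompletion K)) :
            Matrix (Fin 2) (Fin 2) (v.adicCompletion K)) 1 1 := by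
      funext t
      exact Matrix.trace_fin_two _
    rw [e]
    exact (hval.matrix_elem 0 0).add (hval.matrix_elem 1 1)
  have hdet : Continuous (fun t : Tv589 γ v =>
      ((t : GL (Fin 2) (v.adicCompletion K)) :
        Matrix (Fin 2) (Fin 2) (v.adicCompletion K)).det) := by
    have e : (fun t : Tv589 γ v => ((t : GL (Fin 2) (v.adicCompletion K)) :
        Matrix (Fin 2) (Fin 2) (v.adicCompletion K)).det)
        = fun t : Tv589 γ v => ((t : GL (Fin 2) (v.adicCompletion K)) :
            Matrix (Fin 2) (Fin 2) (v.adicCompletion K)) 0 0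
          * ((t : GL (Fin 2) (v.adicCompletion K)) :
            Matrix (Fin 2) (Fin 2) (v.adicCompletion K)) 1 1
          - ((t : GL (Fin 2) (v.adicCompletion K)) :
            Matrix (Fin 2) (Fin 2) (v.adicCompletion K)) 0 1
          * ((t : GL (Fin 2) (v.adicCompletion K)) :
            Matrix (Fin 2) (Fin 2) (v.adicCompletion K)) 1 0 := by
      funext t
      exact Matrix.det_fin_two _
    rw [e]
    exact ((hval.matrix_elem 0 0).mul (hval.matrix_elem 1 1)).sub
      ((hval.matrix_elem 0 1).mul (hval.matrix_elem 1 0))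
  have hO : IsOpen {x : v.adicCompletion K | Valued.v x ≤ 1} := by
    have := Valued.isOpen_valuationSubring (v.adicCompletion K)
    exact this
  have hlt : IsOpen {x : v.adicCompletion K | Valued.v x < 1} :=
    H11.LC.isOpen_valued_lt_one_h11 K v
  have e : Tc589 γ v
      = (fun t : Tv589 γ v => ((t : GL (Fin 2) (v.adicCompletion K)) :
          Matrix (Fin 2) (Fin 2) (v.adicCompletion K)).trace) ⁻¹'
            {x : v.adicCompletion K | Valued.v x ≤ 1}
        ∩ ((fun t : Tv589 γ v => ((t : GL (Fin 2) (v.adicCompletion K)) :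
          Matrix (Fin 2) (Fin 2) (v.adicCompletion K)).det) ⁻¹'
            {x : v.adicCompletion K | Valued.v x ≤ 1}
          \ (fun t : Tv589 γ v => ((t : GL (Fin 2) (v.adicCompletion K)) :
          Matrix (Fin 2) (Fin 2) (v.adicCompletion K)).det) ⁻¹'
            {x : v.adicCompletion K | Valued.v x < 1}) := by
    ext t
    simp only [Tc589, Set.mem_setOf_eq, Set.mem_inter_iff, Set.mem_preimage, Set.mem_sdiff,
      not_lt]
    constructor
    · rintro ⟨h1, h2⟩
      exact ⟨h1, h2.le, h2.ge⟩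
    · rintro ⟨h1, h2, h3⟩
      exact ⟨h1, le_antisymm h2 h3⟩
  rw [e]
  exact ((hO.preimage htr).measurableSet).inter
    (((hO.preimage hdet).measurableSet).diff ((hlt.preimage hdet).measurableSet))

end Meas2

section Meas3

attribute [local instance] instMSTA589 instBSTA589 instMSGv589 instBSGv589 instMSGC589
  instBSGC589 instMSTv589 instBSTv589 instMSTw589 instBSTw589 instLCTv589 instLCTw589
  instSCTv589 instSCTw589

/-- The set `{t : t_v ∈ T_v^c for all v, t_∞ ∈ B}`. -/
def Omega589 (γ : GL (Fin 2) K) (B : Set (∀ w : InfinitePlace K, Tw589 γ w)) : Set (TA589 γ) :=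
  {t | (∀ v, locHom589 γ v t ∈ Tc589 γ v) ∧ (fun w => archHom589 γ w t) ∈ B}

theorem preimage_box589 (γ : GL (Fin 2) K) (S : Finset (HeightOneSpectrum (𝓞 K)))
    (hS : GoodOut305 S γ) (B : Set (∀ w : InfinitePlace K, Tw589 γ w)) :
    pS589 γ S ⁻¹' ((Set.pi Set.univ fun v : S => Tc589 γ v.1) ×ˢ B)
        ∩ (ES589 γ S : Set (TA589 γ)) = Omega589 γ B := by
  ext t
  constructor
  · rintro ⟨⟨h1, h2⟩, h3⟩
    have h3' : OutT305 S (t : G K) := (mem_ES589 γ S t).1 h3
    refine ⟨fun v => ?_, h2⟩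
    by_cases hv : v ∈ S
    · exact h1 ⟨v, hv⟩ (Set.mem_univ _)
    · exact (tc_iff_int589 γ v (hS v hv) t).2 (h3' v hv)
  · rintro ⟨h1, h2⟩
    refine ⟨⟨fun v _ => h1 v.1, h2⟩, ?_⟩
    exact (mem_ES589 γ S t).2 fun v hv => (tc_iff_int589 γ v (hS v hv) t).1 (h1 v)

theorem cS_box589 (γ : GL (Fin 2) K) (μT : Measure (TA589 γ))
    (S : Finset (HeightOneSpectrum (𝓞 K))) (hS : GoodOut305 S γ)
    (μ₁ : ∀ v : S, Measure (Tv589 γ v.1)) [∀ v, SigmaFinite (μ₁ v)]
    (h1 : ∀ v : S, μ₁ v (Tc589 γ v.1) = 1)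
    (μ₂ : ∀ w : InfinitePlace K, Measure (Tw589 γ w)) [∀ w, SigmaFinite (μ₂ w)] (c : NNReal)
    (hc : Measure.map (pS589 γ S) (μT.restrict (ES589 γ S : Set (TA589 γ)))
      = c • ((Measure.pi μ₁).prod (Measure.pi μ₂)))
    (B : Set (∀ w : InfinitePlace K, Tw589 γ w)) (hB : MeasurableSet B) :
    μT (Omega589 γ B) = c * (Measure.pi μ₂) B := by
  have hbox : MeasurableSet ((Set.pi Set.univ fun v : S => Tc589 γ v.1) ×ˢ B) :=
    (MeasurableSet.univ_pi fun v => measurableSet_Tc589 γ v.1).prod hB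
  have e1 := H159.map_restrict_apply159 μT (ES589 γ S) (pS589 γ S) (continuous_pS589 γ S) hbox
  rw [preimage_box589 γ S hS B, hc, smul_prod_box589 μ₁ μ₂ c _ h1 B] at e1
  exact e1.symm

theorem exists_nice589 (γ : GL (Fin 2) K) (μ₂ : ∀ w : InfinitePlace K, Measure (Tw589 γ w))
    [∀ w, (μ₂ w).IsHaarMeasure] :
    ∃ B : Set (∀ w : InfinitePlace K, Tw589 γ w), MeasurableSet B ∧
      (Measure.pi μ₂) B ≠ 0 ∧ (Measure.pi μ₂) B ≠ ⊤ := by
  obtain ⟨C, hC, hC1⟩ := exists_compact_mem_nhds (1 : ∀ w : InfinitePlace K, Tw589 γ w)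
  refine ⟨closure C, isClosed_closure.measurableSet, ?_, hC.closure.measure_lt_top.ne⟩
  exact (Measure.measure_pos_of_mem_nhds (Measure.pi μ₂)
    (Filter.mem_of_superset hC1 subset_closure)).ne'

/-- The constants at two good levels agree. -/
theorem cS_unique589 (γ : GL (Fin 2) K) (μT : Measure (TA589 γ))
    (S S' : Finset (HeightOneSpectrum (𝓞 K))) (hS : GoodOut305 S γ) (hS' : GoodOut305 S' γ)
    (μ₁ : ∀ v : HeightOneSpectrum (𝓞 K), Measure (Tv589 γ v)) [∀ v, (μ₁ v).IsHaarMeasure]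
    (h1 : ∀ v, μ₁ v (Tc589 γ v) = 1)
    (μ₂ : ∀ w : InfinitePlace K, Measure (Tw589 γ w)) [∀ w, (μ₂ w).IsHaarMeasure]
    (c c' : NNReal)
    (hc : Measure.map (pS589 γ S) (μT.restrict (ES589 γ S : Set (TA589 γ)))
      = c • ((Measure.pi fun v : S => μ₁ v.1).prod (Measure.pi μ₂)))
    (hc' : Measure.map (pS589 γ S') (μT.restrict (ES589 γ S' : Set (TA589 γ)))
      = c' • ((Measure.pi fun v : S' => μ₁ v.1).prod (Measure.pi μ₂))) :
    c' = c := by
  obtain ⟨B, hBm, hB0, hBt⟩ := exists_nice589 γ μ₂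
  have e1 := cS_box589 γ μT S hS (fun v : S => μ₁ v.1) (fun v => h1 v.1) μ₂ c hc B hBm
  have e2 := cS_box589 γ μT S' hS' (fun v : S' => μ₁ v.1) (fun v => h1 v.1) μ₂ c' hc' B hBm
  rw [e1] at e2
  have := (ENNReal.mul_left_inj hB0 hBt).mp e2
  exact_mod_cast this.symm

/-- The ambient form. -/
theorem map_compS589 (γ : GL (Fin 2) K) (μT : Measure (TA589 γ))
    (S : Finset (HeightOneSpectrum (𝓞 K)))
    (μ₁ : ∀ v : S, Measure (Tv589 γ v.1)) [∀ v, (μ₁ v).IsHaarMeasure]
    (μ₂ : ∀ w : InfinitePlace K, Measure (Tw589 γ w)) [∀ w, (μ₂ w).IsHaarMeasure] (c : NNReal)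
    (hc : Measure.map (pS589 γ S) (μT.restrict (ES589 γ S : Set (TA589 γ)))
      = c • ((Measure.pi μ₁).prod (Measure.pi μ₂))) :
    Measure.map (fun t : TA589 γ => compS305 S (t : G K))
        (μT.restrict {t : TA589 γ | OutT305 S (t : G K)})
      = ENNReal.ofReal (c : ℝ) •
        ((Measure.pi fun v : S => Measure.map Subtype.val (μ₁ v)).prod
          (Measure.pi fun w : InfinitePlace K => Measure.map Subtype.val (μ₂ w))) := by
  have hce1 : ∀ v : S, Topology.IsClosedEmbedding
      (Subtype.val : Tv589 γ v.1 → GL (Fin 2) (v.1.adicCompletion K)) := fun v =>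
    (isClosed_Tv589 γ v.1).isClosedEmbedding_subtypeVal
  have hce2 : ∀ w : InfinitePlace K, Topology.IsClosedEmbedding
      (Subtype.val : Tw589 γ w → GL (Fin 2) ℂ) := fun w =>
    (isClosed_Tw589 γ w).isClosedEmbedding_subtypeVal
  have hme1 : ∀ v : S, MeasurableEmbedding
      (Subtype.val : Tv589 γ v.1 → GL (Fin 2) (v.1.adicCompletion K)) := fun v =>
    (hce1 v).measurableEmbedding
  have hme2 : ∀ w : InfinitePlace K, MeasurableEmbedding
      (Subtype.val : Tw589 γ w → GL (Fin 2) ℂ) := fun w =>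
    (hce2 w).measurableEmbedding
  have : ∀ v : S, SigmaFinite ((μ₁ v).map
      (Subtype.val : Tv589 γ v.1 → GL (Fin 2) (v.1.adicCompletion K))) := fun v =>
    (hme1 v).sigmaFinite_map
  have : ∀ w : InfinitePlace K, SigmaFinite ((μ₂ w).map
      (Subtype.val : Tw589 γ w → GL (Fin 2) ℂ)) := fun w =>
    (hme2 w).sigmaFinite_map
  have hj1 : ∀ v : S, Measurable (Subtype.val : Tv589 γ v.1 → GL (Fin 2) (v.1.adicCompletion K)) :=
    fun v => continuous_subtype_val.measurable
  have hj2 : ∀ w : InfinitePlace K, Measurable (Subtype.val : Tw589 γ w → GL (Fin 2) ℂ) :=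
    fun w => continuous_subtype_val.measurable
  have hjm : Measurable (Prod.map
      (fun (x : ∀ v : S, Tv589 γ v.1) (v : S) =>
        ((x v : Tv589 γ v.1) : GL (Fin 2) (v.1.adicCompletion K)))
      (fun (y : ∀ w : InfinitePlace K, Tw589 γ w) (w : InfinitePlace K) =>
        ((y w : Tw589 γ w) : GL (Fin 2) ℂ))) :=
    (measurable_pi_lambda _ fun v => (hj1 v).comp (measurable_pi_apply v)).prodMap
      (measurable_pi_lambda _ fun w => (hj2 w).comp (measurable_pi_apply w))
  have hpm : Measurable (pS589 γ S) := (continuous_pS589 γ S).measurable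
  have hcomp : (fun t : TA589 γ => compS305 S (t : G K))
      = (Prod.map
          (fun (x : ∀ v : S, Tv589 γ v.1) (v : S) =>
            ((x v : Tv589 γ v.1) : GL (Fin 2) (v.1.adicCompletion K)))
          (fun (y : ∀ w : InfinitePlace K, Tw589 γ w) (w : InfinitePlace K) =>
            ((y w : Tw589 γ w) : GL (Fin 2) ℂ))) ∘ pS589 γ S := rfl
  rw [← coe_ES589, hcomp, ← Measure.map_map hjm hpm, hc, Measure.map_smul,
    map_prodMap_pi589 μ₁ μ₂ (fun v => Subtype.val) hj1 (fun w => Subtype.val) hj2,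
    ENNReal.ofReal_coe_nnreal]
  rfl

end Meas3

/-- **LEAF C2.7.5 `TorSplitC305`**: the torus constant exists. -/
theorem torSplitC589 (K : Type) [Field K] [NumberField K] : TorSplitC305 K := by
  intro hK γ _ μT hμT L hL1 hL2
  classical
  by_cases hex : ∃ S₁ : Finset (HeightOneSpectrum (𝓞 K)), GoodOut305 S₁ γ
  swap
  · exact ⟨1, one_pos, fun S hS => absurd ⟨S, hS⟩ hex⟩
  obtain ⟨S₁, hS₁⟩ := hex
  have := hμT
  have hH1 : ∀ v : HeightOneSpectrum (𝓞 K),
      @Measure.IsHaarMeasure _ _ _ (borel _) (L.μt v) := fun v => (hL1 v).1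
  have := hL2
  obtain ⟨c₁, hc₁pos, hc₁⟩ := exists_cS589 hK γ μT S₁ (fun v : S₁ => L.μt v.1) L.μtc
  refine ⟨(c₁ : ℝ), by exact_mod_cast hc₁pos, ?_⟩
  intro S hS
  obtain ⟨c, -, hc⟩ := exists_cS589 hK γ μT S (fun v : S => L.μt v.1) L.μtc
  have hcc : c = c₁ :=
    cS_unique589 γ μT S₁ S hS₁ hS L.μt (fun v => (hL1 v).2) L.μtc c₁ c hc₁ hc
  rw [hcc] at hc
  exact map_compS589 γ μT S (fun v : S => L.μt v.1) L.μtc c₁ hc

end Fermat.Agent.LT.H589

end
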