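import Mathlib
import Fermat.Agent.LT.T1.H724.HeckeCoset
import Fermat.Agent.LT.T7.H589.StepTSpec

/-!
# Row LT, tower T7, leaf ST.2 `ST589.SysC589` (helper589, registry 3002): PROVED

OFF-MAIN.  `sysC589 F : SysC589 F` for every number field `F`, from the closed leaf
`T1.H724.leafHeckeCoset724` (helper724).  No hole, nothing assumed.
-/

set_option autoImplicit false

open IsDedekindDomain NumberField

noncomputable section

namespace Fermat.Agent.LT.T7.ST589

open Fermat.Agent.LT.H556 Fermat.Agent.LT.H556.A0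

/-- **LEAF ST.2 = SYS**, every number field. -/
theorem sysC589 (F : Type) [Field F] [NumberField F] : SysC589 F := by
  intro v
  obtain ⟨⟨H, hH⟩, -, ⟨z, hz⟩⟩ := Fermat.Agent.LT.T1.H724.leafHeckeCoset724 F v
  exact ⟨H, z, hH, hz⟩

/-- Fullness of a Hecke coset system (form of `T1.H724.full724`). -/
theorem full589 {F : Type} [Field F] [NumberField F] (v : HeightOneSpectrum (𝓞 F))
    (H : Finset (G F)) (hH : IsHeckeCosetSystem v H) (g : G F) (hg : IsIntegralAt v g)
    (hgdet : Valued.v (finComp v g).det = WithZero.exp (-1 : ℤ)) :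
    ∃ h ∈ H, IsIntegralAt v (h⁻¹ * g) :=
  Fermat.Agent.LT.T1.H724.full724 v H hH g hg hgdet

end Fermat.Agent.LT.T7.ST589

end
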